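/-
P-CFT / BRAUER-S row 925 (BS-2): the algebra core of the Brauer-S lift,

`bsAlg : Fermat.Agent.H76.Cft.BsAlgStatement`   (pure algebra).

With `ι g := (χ g).val`, `b₀ g := ∏_{k < ι g} s^k α`, `δ₀ := ∏_{j < p} ∏_{k < j} s^k α` and
`f g := u ^ ι g * b₀ g ^ (-p) * δ₀ / g δ₀` one has `f g ∈ E` (computation in `A / E`: the classes
`a k` of `s^k α` are `p`-periodic, `g (s^k α) ≡ a (ι g + k)`, `u ≡ ∏_{k<p} a k`, and
`Φ i := ∏_{j<p} ∏_{k<j} a (i + k)` satisfies `Φ (i+1) a(i)^p = Φ i T`).  With `e g` a `p`-th root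
of `(f g)⁻¹` in `E` and `b := b₀ / e` we get `b g ^ p = u ^ ι g * δ₀ / g δ₀`, hence
`(d b) ^ p = std ^ p`.
-/
import Fermat.Agent.H76.Cft.BrauerSInterfaces

set_option autoImplicit false

open Finset

namespace Fermat.Agent.H96.BsAlg

section periodic

variable {Q : Type*} [CommGroup Q]

/-- The product over a full period of a periodic sequence does not depend on the start. -/
theorem prod_range_shift_periodic (a : ℕ → Q) (p : ℕ) (ha : ∀ k, a (k + p) = a k) (i : ℕ) :
    ∏ j ∈ range p, a (i + j) = ∏ j ∈ range p, a j := by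
  induction i with
  | zero => simp
  | succ i ih =>
    have h1 : ∏ j ∈ range (p + 1), a (i + j) = (∏ j ∈ range p, a (i + j)) * a (i + p) :=
      prod_range_succ _ _
    have h2 : ∏ j ∈ range (p + 1), a (i + j) = (∏ j ∈ range p, a (i + (j + 1))) * a (i + 0) :=
      prod_range_succ' _ _
    have h3 : (∏ j ∈ range p, a (i + 1 + j)) * a i = (∏ j ∈ range p, a (i + j)) * a i := by
      have h4 : ∏ j ∈ range p, a (i + 1 + j) = ∏ j ∈ range p, a (i + (j + 1)) :=
        prod_congr rfl fun j _ => by rw [add_assoc, add_comm 1 j]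
      rw [h4]
      have := h2.symm.trans h1
      rwa [add_zero, ha] at this
    rw [mul_right_cancel h3, ih]

/-- `Φ i = ∏_{j<p} ∏_{k<j} a (i + k)`. -/
def phi (a : ℕ → Q) (p i : ℕ) : Q := ∏ j ∈ range p, ∏ k ∈ range j, a (i + k)

theorem phi_succ (a : ℕ → Q) (p : ℕ) (ha : ∀ k, a (k + p) = a k) (i : ℕ) :
    phi a p (i + 1) * a i ^ p = phi a p i * ∏ j ∈ range p, a j := by
  have h1 : ∀ j, (∏ k ∈ range j, a (i + 1 + k)) * a i = (∏ k ∈ range j, a (i + k)) * a (i + j) := by
    intro j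
    have e1 : ∏ k ∈ range (j + 1), a (i + k) = (∏ k ∈ range j, a (i + k)) * a (i + j) :=
      prod_range_succ _ _
    have e2 : ∏ k ∈ range (j + 1), a (i + k) = (∏ k ∈ range j, a (i + (k + 1))) * a (i + 0) :=
      prod_range_succ' _ _
    have e3 : ∏ k ∈ range j, a (i + 1 + k) = ∏ k ∈ range j, a (i + (k + 1)) :=
      prod_congr rfl fun k _ => by rw [add_assoc, add_comm 1 k]
    rw [e3, ← e1, e2, add_zero]
  have h2 : ∏ j ∈ range p, ((∏ k ∈ range j, a (i + 1 + k)) * a i) =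
      ∏ j ∈ range p, ((∏ k ∈ range j, a (i + k)) * a (i + j)) :=
    prod_congr rfl fun j _ => h1 j
  rw [prod_mul_distrib, prod_mul_distrib, prod_const, card_range,
    prod_range_shift_periodic a p ha i] at h2
  exact h2

theorem phi_formula (a : ℕ → Q) (p : ℕ) (ha : ∀ k, a (k + p) = a k) (i : ℕ) :
    (∏ j ∈ range p, a j) ^ i * phi a p 0 = (∏ k ∈ range i, a k) ^ p * phi a p i := by
  induction i with
  | zero => simp
  | succ i ih =>
    have h := phi_succ a p ha i
    calc (∏ j ∈ range p, a j) ^ (i + 1) * phi a p 0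
        = ((∏ j ∈ range p, a j) ^ i * phi a p 0) * ∏ j ∈ range p, a j := by
          rw [pow_succ]; exact mul_right_comm _ _ _
      _ = (∏ k ∈ range i, a k) ^ p * (phi a p i * ∏ j ∈ range p, a j) := by
          rw [ih, mul_assoc]
      _ = (∏ k ∈ range i, a k) ^ p * (phi a p (i + 1) * a i ^ p) := by rw [h]
      _ = (∏ k ∈ range (i + 1), a k) ^ p * phi a p (i + 1) := by
          rw [prod_range_succ, mul_pow, mul_assoc, mul_comm (phi a p (i + 1)) (a i ^ p)]

/-- The final identity in a commutative group. -/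
theorem key_identity (U X Y D : Q) (p q ig ih igh : ℕ) (h : ig + ih = igh + p * q) :
    (U ^ q) ^ p = U ^ ih * (X / Y) * (U ^ ig * (D / X)) / (U ^ igh * (D / Y)) := by
  rw [eq_div_iff_mul_eq']
  have h1 : (U ^ q) ^ p * U ^ igh = U ^ ih * U ^ ig := by
    rw [← pow_mul, ← pow_add, ← pow_add]
    congr 1
    linarith [mul_comm p q]
  have h2 : X / Y * (D / X) = D / Y := by
    rw [mul_comm, div_mul_div_cancel]
  calc (U ^ q) ^ p * (U ^ igh * (D / Y))
      = ((U ^ q) ^ p * U ^ igh) * (D / Y) := (mul_assoc _ _ _).symm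
    _ = (U ^ ih * U ^ ig) * (X / Y * (D / X)) := by rw [h1, h2]
    _ = U ^ ih * (X / Y) * (U ^ ig * (D / X)) := by
        simp only [mul_comm, mul_left_comm, mul_assoc]

end periodic

theorem bsAlg : Fermat.Agent.H76.Cft.BsAlgStatement := by
  intro G A _ _ act h1 hmul E hE p _ hdiv χ hχ s hs u α hu hα hnorm
  classical
  have hp : p.Prime := Fact.out
  have : NeZero p := ⟨hp.ne_zero⟩
  -- elementary facts on `χ`
  have hχ1 : χ 1 = 0 := by
    have := hχ 1 1
    rw [mul_one] at this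
    exact left_eq_add.mp this
  have hχpow : ∀ m : ℕ, χ (s ^ m) = (m : ZMod p) := by
    intro m
    induction m with
    | zero => simpa using hχ1
    | succ m ih => rw [pow_succ, hχ, ih, hs, Nat.cast_succ]
  have hχinv : ∀ g, χ g⁻¹ = -χ g := by
    intro g
    have := hχ g⁻¹ g
    rw [inv_mul_cancel, hχ1] at this
    exact eq_neg_of_add_eq_zero_left this.symm
  -- the quotient `A / E`
  let π : A →* A ⧸ E := QuotientGroup.mk' E
  have hπ : ∀ x, π x = 1 ↔ x ∈ E := fun x => QuotientGroup.eq_one_iff x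
  let a : ℕ → A ⧸ E := fun k => π (act (s ^ k) α)
  have hF1 : ∀ (g : G) (k : ℕ), π (act g (act (s ^ k) α)) = a ((χ g).val + k) := by
    intro g k
    have hn : χ ((s ^ ((χ g).val + k))⁻¹ * (g * s ^ k)) = 0 := by
      rw [hχ, hχ, hχinv, hχpow, hχpow, Nat.cast_add, ZMod.natCast_zmod_val]
      ring
    have hgs : g * s ^ k = s ^ ((χ g).val + k) * ((s ^ ((χ g).val + k))⁻¹ * (g * s ^ k)) := by
      rw [mul_inv_cancel_left]
    have hsplit : act ((s ^ ((χ g).val + k))⁻¹ * (g * s ^ k)) α =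
        α * (act ((s ^ ((χ g).val + k))⁻¹ * (g * s ^ k)) α / α) := by
      rw [mul_div_cancel]
    rw [← hmul, hgs, hmul, hsplit, map_mul, map_mul,
      (hπ _).mpr (hE _ _ (hα _ hn)), mul_one]
  have hper : ∀ k, a (k + p) = a k := by
    intro k
    have h2 := hF1 (s ^ p) k
    rw [← hmul, ← pow_add, hχpow, ZMod.natCast_self, ZMod.val_zero, zero_add] at h2
    rw [← h2, add_comm]
  have hT : π u = ∏ k ∈ range p, a k := by
    have := (hπ _).mpr hnorm
    rw [map_div, div_eq_one] at this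
    rw [this, map_prod]
  -- the construction
  let ι : G → ℕ := fun g => (χ g).val
  let b₀ : G → A := fun g => ∏ k ∈ range (ι g), act (s ^ k) α
  let δ₀ : A := ∏ j ∈ range p, ∏ k ∈ range j, act (s ^ k) α
  let f : G → A := fun g => u ^ (ι g) * (b₀ g ^ p)⁻¹ * (δ₀ / act g δ₀)
  have hf : ∀ g, f g ∈ E := by
    intro g
    rw [← hπ]
    have e1 : π (b₀ g) = ∏ k ∈ range (ι g), a k := by
      simp only [b₀, map_prod]
      rfl
    have e2 : π δ₀ = phi a p 0 := by
      simp only [δ₀, map_prod, phi, zero_add]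
      rfl
    have e3 : π (act g δ₀) = phi a p (ι g) := by
      simp only [δ₀, map_prod, phi, hF1]
      rfl
    show π (u ^ (ι g) * (b₀ g ^ p)⁻¹ * (δ₀ / act g δ₀)) = 1
    rw [map_mul, map_mul, map_inv, map_pow, map_pow, map_div, hT, e1, e2, e3,
      ← div_eq_mul_inv, div_mul_div_comm, phi_formula a p hper (ι g), div_self']
  -- the roots
  have hroot : ∀ x : E, ∃ y : A, y ∈ E ∧ y ^ p = (x : A) := fun x =>
    let ⟨y, hy, hyx⟩ := hdiv x x.2
    ⟨y, hy, hyx⟩
  choose root hrootE hrootp using hroot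
  let e : G → A := fun g => root ⟨(f g)⁻¹, E.inv_mem (hf g)⟩
  have heE : ∀ g, e g ∈ E := fun g => hrootE _
  have hep : ∀ g, e g ^ p = (f g)⁻¹ := fun g => hrootp _
  have hee : ∀ g g', f g = f g' → e g = e g' := by
    intro g g' h
    show root ⟨(f g)⁻¹, E.inv_mem (hf g)⟩ = root ⟨(f g')⁻¹, E.inv_mem (hf g')⟩
    congr 1
    exact Subtype.ext (show (f g)⁻¹ = (f g')⁻¹ from congrArg (fun x => x⁻¹) h)
  refine ⟨fun g => b₀ g / e g, ?_, ?_, ?_⟩
  · -- invariance
    intro N hNχ hNfix g n hn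
    have hι : ι (g * n) = ι g := by
      show (χ (g * n)).val = (χ g).val
      rw [hχ, hNχ n hn, add_zero]
    have hδ : act n δ₀ = δ₀ := by
      simp only [δ₀, map_prod, hNfix n hn]
    have hb : b₀ (g * n) = b₀ g := by
      show ∏ k ∈ range (ι (g * n)), act (s ^ k) α = ∏ k ∈ range (ι g), act (s ^ k) α
      rw [hι]
    have hfgn : f (g * n) = f g := by
      show u ^ (ι (g * n)) * (b₀ (g * n) ^ p)⁻¹ * (δ₀ / act (g * n) δ₀) =
        u ^ (ι g) * (b₀ g ^ p)⁻¹ * (δ₀ / act g δ₀)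
      rw [hι, hb, hmul, hδ]
    show b₀ (g * n) / e (g * n) = b₀ g / e g
    rw [hb, hee _ _ hfgn]
  · -- values
    intro A₀ hEA hαA hA₀ g
    exact A₀.div_mem (A₀.prod_mem fun k _ => hA₀ _ _ hαA) (hEA (heE g))
  · -- the cocycle identity
    intro g h
    have hbp : ∀ g, (b₀ g / e g) ^ p = u ^ (ι g) * (δ₀ / act g δ₀) := by
      intro g
      rw [div_pow, hep, div_inv_eq_mul]
      show b₀ g ^ p * (u ^ (ι g) * (b₀ g ^ p)⁻¹ * (δ₀ / act g δ₀)) = _
      rw [mul_comm (u ^ (ι g)), mul_assoc, mul_inv_cancel_left]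
    have hι : ι g + ι h = ι (g * h) + p * ((ι g + ι h) / p) := by
      have : ι (g * h) = (ι g + ι h) % p := by
        show (χ (g * h)).val = ((χ g).val + (χ h).val) % p
        rw [hχ, ZMod.val_add]
      rw [this]
      exact (Nat.mod_add_div _ _).symm
    rw [div_pow, div_eq_one, div_pow, mul_pow, ← map_pow, hbp, hbp, hbp, map_mul, map_pow, hu,
      map_div, ← hmul]
    exact key_identity u (act g δ₀) (act (g * h) δ₀) δ₀ p _ (ι g) (ι h) (ι (g * h)) hι

end Fermat.Agent.H96.BsAlg
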